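/-
S55, layer L, piece A4d (helper542): functoriality of the standard cyclic 2-cocycle under an
injective homomorphism of finite cyclic groups.

  theorem cycCocyclePullback : Fermat.Agent.S55.Local.CycCocyclePullbackStatement
-/
import Fermat.Agent.S55.Local.Spec

set_option autoImplicit false

namespace Fermat.Agent.S55.Local.H542

open Fermat.Agent.S55.Local

/-- `cycIdx σ (σ ^ k) = k` for `k < orderOf σ`. -/
theorem cycIdx_pow_of_lt {G : Type} [Group G] (σ : G) {k : ℕ} (hk : k < orderOf σ) :
    cycIdx σ (σ ^ k) = k := by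
  unfold cycIdx
  apply le_antisymm
  · exact Nat.sInf_le (by simp)
  · apply le_csInf ⟨k, by simp⟩
    intro m hm
    by_contra hlt
    push Not at hlt
    have hm' : σ ^ m = σ ^ k := hm
    have hmo : m < orderOf σ := lt_trans hlt hk
    exact hlt.ne (pow_injOn_Iio_orderOf (by simpa using hmo) (by simpa using hk) hm')

/-- Every element of a finite cyclic group generated by `σ` is `σ ^ k` with `k < orderOf σ`,
and then `cycIdx σ g = k`. -/
theorem exists_pow_eq_of_generator {G : Type} [Group G] [Finite G] (σ : G)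
    (hσ : ∀ g, g ∈ Subgroup.zpowers σ) (g : G) :
    ∃ k : ℕ, k < orderOf σ ∧ σ ^ k = g := by
  have hg := hσ g
  rw [← mem_powers_iff_mem_zpowers] at hg
  obtain ⟨m, hm⟩ := hg
  refine ⟨m % orderOf σ, Nat.mod_lt _ (orderOf_pos σ), ?_⟩
  rw [pow_mod_orderOf]
  exact hm

theorem orderOf_eq_card_of_generator {G : Type} [Group G] [Finite G] (σ : G)
    (hσ : ∀ g, g ∈ Subgroup.zpowers σ) : orderOf σ = Nat.card G :=
  orderOf_eq_card_of_forall_mem_zpowers hσ

/-- **A4d.** -/
theorem cycCocyclePullback : CycCocyclePullbackStatement := by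
  intro G H M _ _ _ _ _ σ τ ρ hσ hτ hρ hρτ x p
  have hoσ : orderOf σ = Nat.card G := orderOf_eq_card_of_generator σ hσ
  have hoτ : orderOf τ = Nat.card H := orderOf_eq_card_of_generator τ hτ
  have hGpos : 0 < Nat.card G := Nat.card_pos
  have hHpos : 0 < Nat.card H := Nat.card_pos
  -- `|H|` divides `|G|`
  have hdvd : Nat.card H ∣ Nat.card G := by
    have h1 : Nat.card H = Nat.card ρ.range :=
      Nat.card_congr (MonoidHom.ofInjective hρ).toEquiv
    rw [h1]
    exact Subgroup.card_subgroup_dvd_card ρ.range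
  obtain ⟨d, hd⟩ := hdvd
  have hdpos : 0 < d := by
    rcases Nat.eq_zero_or_pos d with h0 | h0
    · rw [h0, Nat.mul_zero] at hd; omega
    · exact h0
  have hdiv : Nat.card G / Nat.card H = d := by
    rw [hd, Nat.mul_div_cancel_left d hHpos]
  -- index computation
  have key : ∀ a : H, cycIdx σ (ρ a) = d * cycIdx τ a := by
    intro a
    obtain ⟨i, hi, rfl⟩ := exists_pow_eq_of_generator τ hτ a
    rw [cycIdx_pow_of_lt τ hi, map_pow, hρτ, hdiv, ← pow_mul]
    apply cycIdx_pow_of_lt
    rw [hoσ, hd, Nat.mul_comm (Nat.card H) d]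
    rw [hoτ] at hi
    exact Nat.mul_lt_mul_of_pos_left hi hdpos
  unfold cycCocycle
  simp only
  rw [key p.1, key p.2, ← Nat.mul_add, hd, Nat.mul_comm (Nat.card H) d,
    Nat.mul_div_mul_left _ _ hdpos]

end Fermat.Agent.S55.Local.H542
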