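/-
S55, layer L (helper542): basic facts about the discrete logarithm `cycIdx` of a finite cyclic
group and a small commutative-group toolbox, shared by the pieces A4b / A4c.
-/
import Fermat.Agent.S55.Local.H542.CycPullback

set_option autoImplicit false

namespace Fermat.Agent.S55.Local.H542

open Fermat.Agent.S55.Local

section Idx

variable {G : Type} [Group G] [Finite G] (σ : G) (hσ : ∀ g, g ∈ Subgroup.zpowers σ)

include hσ

theorem pow_card_eq_one_of_generator : σ ^ Nat.card G = 1 := by
  rw [← orderOf_eq_card_of_generator σ hσ]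
  exact pow_orderOf_eq_one σ

theorem cycIdx_lt_card (g : G) : cycIdx σ g < Nat.card G := by
  obtain ⟨k, hk, rfl⟩ := exists_pow_eq_of_generator σ hσ g
  rw [cycIdx_pow_of_lt σ hk, ← orderOf_eq_card_of_generator σ hσ]
  exact hk

theorem pow_cycIdx (g : G) : σ ^ cycIdx σ g = g := by
  obtain ⟨k, hk, rfl⟩ := exists_pow_eq_of_generator σ hσ g
  rw [cycIdx_pow_of_lt σ hk]

theorem cycIdx_pow (k : ℕ) : cycIdx σ (σ ^ k) = k % Nat.card G := by
  have h1 : σ ^ k = σ ^ (k % Nat.card G) := by
    rw [← orderOf_eq_card_of_generator σ hσ, pow_mod_orderOf]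
  rw [h1]
  apply cycIdx_pow_of_lt
  rw [orderOf_eq_card_of_generator σ hσ]
  exact Nat.mod_lt _ Nat.card_pos

theorem cycIdx_mul (g h : G) :
    cycIdx σ (g * h) = (cycIdx σ g + cycIdx σ h) % Nat.card G := by
  conv_lhs => rw [← pow_cycIdx σ hσ g, ← pow_cycIdx σ hσ h, ← pow_add]
  exact cycIdx_pow σ hσ _

theorem cycIdx_add_eq (g h : G) :
    cycIdx σ g + cycIdx σ h =
      cycIdx σ (g * h) + Nat.card G * ((cycIdx σ g + cycIdx σ h) / Nat.card G) := by
  rw [cycIdx_mul σ hσ]
  exact (Nat.mod_add_div _ _).symm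

theorem cycIdx_one : cycIdx σ (1 : G) = 0 := by
  have := cycIdx_pow σ hσ 0
  simpa using this

end Idx

section Comm

/-- Additive bookkeeping lemma behind `coboundary_bookkeeping`. -/
theorem coboundary_bookkeeping_add {A : Type} [AddCommGroup A] (c Bi gBj gu Bk xq u : A)
    (h : c + Bi + gBj = gu + Bk + xq) : gu - gBj - (u - Bk) + (u - Bi) = c - xq := by
  have hc : c = gu + Bk + xq - Bi - gBj := by rw [← h]; abel
  rw [hc]; abel

/-- Bookkeeping in a commutative group. -/
theorem coboundary_bookkeeping {M : Type} [CommGroup M] (c Bi gBj gu Bk xq u : M)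
    (h : c * Bi * gBj = gu * Bk * xq) : gu / gBj / (u / Bk) * (u / Bi) = c / xq :=
  coboundary_bookkeeping_add (A := Additive M) c Bi gBj gu Bk xq u h

theorem mul_right_cancel_comm_add {A : Type} [AddCommGroup A] (a b c d : A)
    (h : a + b + c = a + (b + d)) : c = d := by
  have : c = (a + b + c) - a - b := by abel
  rw [this, h]; abel

end Comm

end Fermat.Agent.S55.Local.H542
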