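/-
S55, layer L, piece A4b (helper542): the standard cyclic 2-cocycle of `x` is a coboundary iff
`x` is a norm.

  theorem cycCocycleCoboundaryIff : Fermat.Agent.S55.Local.CycCocycleCoboundaryIffStatement
-/
import Fermat.Agent.S55.Local.H542.CycBasic

set_option autoImplicit false

namespace Fermat.Agent.S55.Local.H542

open Fermat.Agent.S55.Local groupCohomology

section

variable {G M : Type} [Group G] [CommGroup M] [MulDistribMulAction G M]

/-- The partial norms `P j = ∏_{k<j} σ^k • y`. -/
noncomputable def cycP (σ : G) (y : M) (j : ℕ) : M :=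
  ∏ k ∈ Finset.range j, σ ^ k • y

theorem cycP_zero (σ : G) (y : M) : cycP σ y 0 = 1 := by
  simp [cycP]

theorem cycP_succ (σ : G) (y : M) (j : ℕ) : cycP σ y (j + 1) = cycP σ y j * σ ^ j • y := by
  simp [cycP, Finset.prod_range_succ]

theorem cycP_add (σ : G) (y : M) (i j : ℕ) :
    cycP σ y (i + j) = cycP σ y i * σ ^ i • cycP σ y j := by
  induction j with
  | zero => simp [cycP_zero]
  | succ j ih =>
    rw [← add_assoc, cycP_succ, ih, cycP_succ, smul_mul', pow_add, mul_smul, mul_assoc]

theorem smul_pow_eq_of_smul_eq {σ : G} {x : M} (hx : σ • x = x) (k : ℕ) : σ ^ k • x = x := by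
  induction k with
  | zero => simp
  | succ k ih => rw [pow_succ, mul_smul, hx, ih]

end

section

variable {G M : Type} [Group G] [Fintype G] [CommGroup M] [MulDistribMulAction G M]
variable (σ : G) (hσ : ∀ g, g ∈ Subgroup.zpowers σ)

include hσ

/-- The norm as a product over the powers of the generator. -/
theorem prod_univ_smul_eq_cycP (y : M) : ∏ g : G, g • y = cycP σ y (Nat.card G) := by
  symm
  unfold cycP
  refine Finset.prod_nbij' (fun k => σ ^ k) (fun g => cycIdx σ g) ?_ ?_ ?_ ?_ ?_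
  · intro k _; exact Finset.mem_univ _
  · intro g _; exact Finset.mem_range.mpr (cycIdx_lt_card σ hσ g)
  · intro k hk
    apply cycIdx_pow_of_lt
    rw [orderOf_eq_card_of_generator σ hσ]
    exact Finset.mem_range.mp hk
  · intro g _; exact pow_cycIdx σ hσ g
  · intro k _; rfl

omit hσ in
theorem cycP_add_card_mul {y x : M} (hy : cycP σ y (Nat.card G) = x) (hx : σ • x = x)
    (k q : ℕ) : cycP σ y (k + Nat.card G * q) = cycP σ y k * x ^ q := by
  induction q with
  | zero => simp
  | succ q ih =>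
    rw [Nat.mul_succ, ← Nat.add_assoc, cycP_add, ih, hy, smul_pow_eq_of_smul_eq hx, pow_succ,
      mul_assoc]

theorem isMulCoboundary₂_cycCocycle_of_norm {x : M} (hx : σ • x = x) {y : M}
    (hy : ∏ g : G, g • y = x) : IsMulCoboundary₂ (cycCocycle σ x) := by
  rw [prod_univ_smul_eq_cycP σ hσ] at hy
  refine ⟨fun g => cycP σ y (cycIdx σ g), fun g h => ?_⟩
  simp only [cycCocycle]
  have h1 := cycP_add σ y (cycIdx σ g) (cycIdx σ h)
  rw [pow_cycIdx σ hσ g] at h1
  have hsplit := cycIdx_add_eq σ hσ g h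
  rw [hsplit, cycP_add_card_mul σ hy hx] at h1
  -- h1 : P (idx gh) * x ^ q = P (idx g) * g • P (idx h)
  rw [div_mul_eq_mul_div, div_eq_iff_eq_mul, mul_comm (g • _), ← h1, mul_comm]

theorem cycIdx_self_of_one_lt (h1 : 1 < Nat.card G) : cycIdx σ σ = 1 := by
  have := cycIdx_pow_of_lt σ (k := 1) (by rw [orderOf_eq_card_of_generator σ hσ]; exact h1)
  simpa using this

theorem norm_of_isMulCoboundary₂_cycCocycle {x : M}
    (hcob : IsMulCoboundary₂ (cycCocycle σ x)) : ∃ y : M, ∏ g : G, g • y = x := by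
  obtain ⟨b, hb⟩ := hcob
  rcases Nat.lt_or_ge 1 (Nat.card G) with h1 | h1
  · -- `n ≥ 2`
    refine ⟨b σ, ?_⟩
    rw [prod_univ_smul_eq_cycP σ hσ]
    have hk : ∀ k ∈ Finset.range (Nat.card G),
        σ ^ k • b σ = x ^ ((k + 1) / Nat.card G) * (b (σ ^ (k + 1)) / b (σ ^ k)) := by
      intro k hk
      have h := hb (σ ^ k) σ
      simp only [cycCocycle] at h
      have hklt : k < orderOf σ := by
        rw [orderOf_eq_card_of_generator σ hσ]
        exact Finset.mem_range.mp hk
      rw [cycIdx_pow_of_lt σ hklt, cycIdx_self_of_one_lt σ hσ h1, ← pow_succ] at h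
      rw [← h]
      simp only [div_eq_mul_inv]
      have e : ∀ a b c : M, a = a * b⁻¹ * c * (b * c⁻¹) := by
        intro a b c
        have : a * b⁻¹ * c * (b * c⁻¹) = a * (b⁻¹ * b) * (c * c⁻¹) := by ac_rfl
        rw [this]; simp
      exact e _ _ _
    unfold cycP
    have htel : ∏ k ∈ Finset.range (Nat.card G), b (σ ^ (k + 1)) / b (σ ^ k) =
        b (σ ^ Nat.card G) / b (σ ^ 0) :=
      Finset.prod_range_div (fun k => b (σ ^ k)) (Nat.card G)
    rw [Finset.prod_congr rfl hk, Finset.prod_mul_distrib, htel,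
      pow_card_eq_one_of_generator σ hσ, pow_zero, div_self', mul_one]
    obtain ⟨m, hm⟩ : ∃ m, Nat.card G = m + 1 := ⟨Nat.card G - 1, by omega⟩
    rw [hm, Finset.prod_range_succ, ← hm, Nat.div_self (by omega), pow_one]
    have hz : ∀ k ∈ Finset.range m, x ^ ((k + 1) / Nat.card G) = 1 := by
      intro k hk
      have : k + 1 < Nat.card G := by
        have := Finset.mem_range.mp hk
        omega
      rw [Nat.div_eq_of_lt this, pow_zero]
    rw [Finset.prod_congr rfl hz, Finset.prod_const_one, one_mul]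
  · -- `n = 1`
    refine ⟨x, ?_⟩
    have hcard : Nat.card G = 1 := le_antisymm h1 Nat.card_pos
    rw [prod_univ_smul_eq_cycP σ hσ, hcard]
    simp [cycP]

end

theorem cycCocycleCoboundaryIff : CycCocycleCoboundaryIffStatement := by
  intro G M _ _ _ _ σ hσ x hx
  exact ⟨norm_of_isMulCoboundary₂_cycCocycle σ hσ,
    fun ⟨_, hy⟩ => isMulCoboundary₂_cycCocycle_of_norm σ hσ hx hy⟩

end Fermat.Agent.S55.Local.H542
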