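/-
S55, layer L, piece A4c (helper542): every 2-cocycle of a finite cyclic group is cohomologous to
a standard one.

  theorem cycCocycleSurj : Fermat.Agent.S55.Local.CycCocycleSurjStatement

Proof.  Put `a k = c (σ^k, σ)`, `B j = ∏_{m<j} a m`, `u = c (1,1)`.  The cocycle identity at
`(σ^i, σ^j, σ)` gives, by induction on `j`,
  `c (σ^i, σ^j) * B i * σ^i • B j = σ^i • u * B (i + j)`      (all `i j : ℕ`).
`a` is `n`-periodic, so `B (k + n q) = B k * (B n)^q`; `x := B n` is `σ`-invariant, and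
`b g := u / B (cycIdx σ g)` satisfies `d b = c / cycCocycle σ x`.
-/
import Fermat.Agent.S55.Local.H542.CycBasic

set_option autoImplicit false

namespace Fermat.Agent.S55.Local.H542

open Fermat.Agent.S55.Local groupCohomology

section

variable {G M : Type} [Group G] [CommGroup M]

/-- The partial products `B j = ∏_{m<j} c (σ^m, σ)`. -/
noncomputable def cycB (σ : G) (c : G × G → M) (j : ℕ) : M :=
  ∏ m ∈ Finset.range j, c (σ ^ m, σ)

theorem cycB_zero (σ : G) (c : G × G → M) : cycB σ c 0 = 1 := by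
  simp [cycB]

theorem cycB_succ (σ : G) (c : G × G → M) (j : ℕ) :
    cycB σ c (j + 1) = cycB σ c j * c (σ ^ j, σ) := by
  simp [cycB, Finset.prod_range_succ]

variable [MulDistribMulAction G M]

/-- `c (g, 1) = g • c (1, 1)` for a 2-cocycle. -/
theorem isMulCocycle₂_apply_one_right {c : G × G → M} (hc : IsMulCocycle₂ c) (g : G) :
    c (g, 1) = g • c (1, 1) := by
  have h := hc g 1 1
  simp only [mul_one] at h
  exact mul_right_cancel h

/-- The key formula. -/
theorem cyc_formula (σ : G) {c : G × G → M} (hc : IsMulCocycle₂ c) (i j : ℕ) :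
    c (σ ^ i, σ ^ j) * cycB σ c i * σ ^ i • cycB σ c j = σ ^ i • c (1, 1) * cycB σ c (i + j) := by
  induction j with
  | zero =>
    simp only [pow_zero, cycB_zero, smul_one, mul_one, add_zero]
    rw [isMulCocycle₂_apply_one_right hc]
  | succ j ih =>
    have h := hc (σ ^ i) (σ ^ j) σ
    rw [← pow_add, ← pow_succ] at h
    rw [cycB_succ, ← add_assoc, cycB_succ, smul_mul']
    calc c (σ ^ i, σ ^ (j + 1)) * cycB σ c i * (σ ^ i • cycB σ c j * σ ^ i • c (σ ^ j, σ))
        = (σ ^ i • c (σ ^ j, σ) * c (σ ^ i, σ ^ (j + 1))) * (cycB σ c i * σ ^ i • cycB σ c j) := by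
          ac_rfl
      _ = (c (σ ^ (i + j), σ) * c (σ ^ i, σ ^ j)) * (cycB σ c i * σ ^ i • cycB σ c j) := by
          rw [h]
      _ = c (σ ^ i, σ ^ j) * cycB σ c i * σ ^ i • cycB σ c j * c (σ ^ (i + j), σ) := by
          ac_rfl
      _ = σ ^ i • c (1, 1) * cycB σ c (i + j) * c (σ ^ (i + j), σ) := by
          rw [ih]
      _ = σ ^ i • c (1, 1) * (cycB σ c (i + j) * c (σ ^ (i + j), σ)) := by
          rw [mul_assoc]

end

section

variable {G M : Type} [Group G] [Finite G] [CommGroup M] [MulDistribMulAction G M]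
variable (σ : G) (hσ : ∀ g, g ∈ Subgroup.zpowers σ)

include hσ

theorem cycB_add_card (c : G × G → M) (k : ℕ) :
    cycB σ c (k + Nat.card G) = cycB σ c k * cycB σ c (Nat.card G) := by
  induction k with
  | zero => simp [cycB_zero]
  | succ k ih =>
    have hper : c (σ ^ (k + Nat.card G), σ) = c (σ ^ k, σ) := by
      rw [pow_add, pow_card_eq_one_of_generator σ hσ, mul_one]
    rw [Nat.add_right_comm, cycB_succ, ih, hper, cycB_succ]
    ac_rfl

theorem cycB_add_card_mul (c : G × G → M) (k q : ℕ) :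
    cycB σ c (k + Nat.card G * q) = cycB σ c k * cycB σ c (Nat.card G) ^ q := by
  induction q with
  | zero => simp
  | succ q ih =>
    rw [Nat.mul_succ, ← Nat.add_assoc, cycB_add_card σ hσ, ih, pow_succ, mul_assoc]

theorem smul_cycB_card {c : G × G → M} (hc : IsMulCocycle₂ c) :
    σ • cycB σ c (Nat.card G) = cycB σ c (Nat.card G) := by
  have h := cyc_formula σ hc 1 (Nat.card G)
  rw [pow_card_eq_one_of_generator σ hσ, pow_one, isMulCocycle₂_apply_one_right hc,
    cycB_add_card σ hσ] at h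
  -- h : σ • u * B 1 * σ • B n = σ • u * (B 1 * B n)
  exact mul_right_cancel_comm_add (A := Additive M) _ _ _ _ h

/-- **A4c.** -/
theorem cycCocycleSurj_aux {c : G × G → M} (hc : IsMulCocycle₂ c) :
    ∃ x : M, σ • x = x ∧ IsMulCoboundary₂ (fun p => c p / cycCocycle σ x p) := by
  refine ⟨cycB σ c (Nat.card G), smul_cycB_card σ hσ hc,
    fun g => c (1, 1) / cycB σ c (cycIdx σ g), fun g h => ?_⟩
  simp only [cycCocycle]
  have hf := cyc_formula σ hc (cycIdx σ g) (cycIdx σ h)
  rw [pow_cycIdx σ hσ g, pow_cycIdx σ hσ h] at hf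
  have hsplit := cycIdx_add_eq σ hσ g h
  rw [hsplit, cycB_add_card_mul σ hσ, ← mul_assoc] at hf
  rw [smul_div']
  exact coboundary_bookkeeping _ _ _ _ _ _ _ hf

end

theorem cycCocycleSurj : CycCocycleSurjStatement := by
  intro G M _ _ _ _ σ hσ c hc
  exact cycCocycleSurj_aux σ hσ hc

end Fermat.Agent.S55.Local.H542
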