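/-
S55, layer L, piece FF2 (helper542): the multiplicative `H²` of an extension of finite fields
vanishes.

  theorem mulH2FiniteField_of (h4b : CycCocycleCoboundaryIffStatement)
      (h4c : CycCocycleSurjStatement) : MulH2FiniteFieldStatement

(glue form: takes the abstract cyclic-cocycle pieces A4b, A4c as hypotheses).
-/
import Fermat.Agent.S55.Local.Spec

set_option autoImplicit false

namespace Fermat.Agent.S55.Local.H542

open Fermat.Agent.S55.Local groupCohomology

/-- The product of two multiplicative 2-coboundaries is a 2-coboundary. -/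
theorem isMulCoboundary₂_mul {G M : Type} [Group G] [CommGroup M] [MulDistribMulAction G M]
    {c₁ c₂ : G × G → M} (h₁ : IsMulCoboundary₂ c₁) (h₂ : IsMulCoboundary₂ c₂) :
    IsMulCoboundary₂ (fun p => c₁ p * c₂ p) := by
  obtain ⟨x₁, hx₁⟩ := h₁
  obtain ⟨x₂, hx₂⟩ := h₂
  refine ⟨fun g => x₁ g * x₂ g, fun g h => ?_⟩
  simp only
  rw [← hx₁ g h, ← hx₂ g h, smul_mul']
  simp only [div_eq_mul_inv, mul_inv]
  ac_rfl

/-- In a finite Galois extension, the product over the Galois group of the conjugates of a unit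
is the image of its norm. -/
theorem prod_smul_units_eq_norm {k l : Type} [Field k] [Field l] [Algebra k l]
    [FiniteDimensional k l] [IsGalois k l] [Fintype (l ≃ₐ[k] l)] (y : lˣ) :
    ((∏ g : l ≃ₐ[k] l, g • y : lˣ) : l) = algebraMap k l (Algebra.norm k (y : l)) := by
  rw [Algebra.norm_eq_prod_automorphisms, Units.coe_prod]
  exact Finset.prod_congr (by ext; simp) fun g _ => rfl

/-- **FF2** (glue form). -/
theorem mulH2FiniteField_of (h4b : CycCocycleCoboundaryIffStatement)
    (h4c : CycCocycleSurjStatement) : MulH2FiniteFieldStatement := by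
  intro k l _ _ _ _ _ c hc
  have : Finite l := Module.finite_of_finite k
  have : IsGalois k l := inferInstance
  have : Finite (l ≃ₐ[k] l) := inferInstance
  let _ : Fintype (l ≃ₐ[k] l) := Fintype.ofFinite _
  obtain ⟨σ, hσ⟩ := IsCyclic.exists_generator (α := l ≃ₐ[k] l)
  obtain ⟨x, hx, hcob⟩ := h4c (l ≃ₐ[k] l) lˣ σ hσ c hc
  -- `x` is fixed by the whole Galois group, hence lies in `k`
  have hfix : ∀ g : l ≃ₐ[k] l, g • x = x := by
    intro g
    obtain ⟨n, rfl⟩ := Subgroup.mem_zpowers_iff.mp (hσ g)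
    have hsub : σ ∈ MulAction.stabilizer (l ≃ₐ[k] l) x := hx
    exact (MulAction.stabilizer (l ≃ₐ[k] l) x).zpow_mem hsub n
  have hxk : (x : l) ∈ (⊥ : IntermediateField k l) := by
    rw [← IsGalois.fixedField_top (F := k) (E := l), IntermediateField.mem_fixedField_iff]
    intro g _
    have := congrArg (fun u : lˣ => (u : l)) (hfix g)
    simpa using this
  obtain ⟨x₀, hx₀⟩ := IntermediateField.mem_bot.mp hxk
  have hx₀ne : x₀ ≠ 0 := by
    rintro rfl
    rw [map_zero] at hx₀
    exact x.ne_zero hx₀.symm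
  obtain ⟨y, hy⟩ := FiniteField.unitsMap_norm_surjective k l (Units.mk0 x₀ hx₀ne)
  have hnorm : ∏ g : l ≃ₐ[k] l, g • y = x := by
    apply Units.ext
    rw [prod_smul_units_eq_norm, ← hx₀]
    congr 1
    have := congrArg (fun u : kˣ => (u : k)) hy
    simpa using this
  have hstd : IsMulCoboundary₂ (cycCocycle σ x) :=
    (h4b (l ≃ₐ[k] l) lˣ σ hσ x hx).mpr ⟨y, hnorm⟩
  have := isMulCoboundary₂_mul hcob hstd
  convert this using 1
  funext p
  simp

end Fermat.Agent.S55.Local.H542
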