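/-
S55, layer L, piece FF2 (helper542), unconditional form:

  theorem mulH2FiniteField : Fermat.Agent.S55.Local.MulH2FiniteFieldStatement
-/
import Fermat.Agent.S55.Local.H542.FF2
import Fermat.Agent.S55.Local.H542.CycCob
import Fermat.Agent.S55.Local.H542.CycSurj

set_option autoImplicit false

namespace Fermat.Agent.S55.Local.H542

open Fermat.Agent.S55.Local

/-- **FF2.** The multiplicative `H²` of an extension of finite fields vanishes. -/
theorem mulH2FiniteField : MulH2FiniteFieldStatement :=
  mulH2FiniteField_of cycCocycleCoboundaryIff cycCocycleSurj

end Fermat.Agent.S55.Local.H542
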